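/-
[DS S1] N-division values of the Weierstrass functions of the lattice `ℤτ + ℤ`, normalised.

`v = (a, b) : Fin 2 → ZMod N` stands for the point `(aτ + b)/N`.
-/
import Fermat.Agent.Bridge.JInjective

set_option autoImplicit false

open Complex CongruenceSubgroup PeriodPair
open UpperHalfPlane hiding I
open scoped Real MatrixGroups ModularForm Manifold

namespace FLTA.DeligneSerre.Torsion

noncomputable section

/-- the exponent vector of an `N`-division point -/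
abbrev Idx (N : ℕ) := Fin 2 → ZMod N

/-- the lattice `ℤ + ℤτ` -/
def lat (τ : ℍ) : PeriodPair := FLTA.Bridge.periodPairOf τ

/-- the division point `(aτ + b)/N` -/
def pt {N : ℕ} (v : Idx N) (τ : ℍ) : ℂ := (((v 0).val : ℂ) * τ + ((v 1).val : ℂ)) / N

/-- normalised `℘`-value: weight 2, equal to `1/12 + X(u,q)` -/
def wp {N : ℕ} (v : Idx N) (τ : ℍ) : ℂ := ℘[lat τ] (pt v τ) / (2 * π * I) ^ 2

/-- normalised `℘'`-value: weight 3, equal to `(X + 2Y)(u,q)` -/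
def wp' {N : ℕ} (v : Idx N) (τ : ℍ) : ℂ := ℘'[lat τ] (pt v τ) / (2 * π * I) ^ 3

/-- right action of `SL₂(ℤ)` on the indices -/
def act {N : ℕ} (v : Idx N) (γ : SL(2, ℤ)) : Idx N :=
  Matrix.vecMul v ((γ : Matrix (Fin 2) (Fin 2) ℤ).map (Int.cast : ℤ → ZMod N))

/-- coefficients of `Σ_n f(qⁿu)`, `f(w) = Σ dᵏ wᵈ`, in `Q = q^(1/N)`, for `ζ` replacing `e^(2πi/N)`;
`sgn` is `1` for `℘` and `-1` for `℘'`. -/
def lamCoeff {R : Type*} [CommRing R] {N : ℕ} (ζ : R) (k : ℕ) (sgn : R) (v : Idx N) (e d : ℕ) : R :=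
  (d : R) ^ k *
    ((if (e : ZMod N) = v 0 then ζ ^ ((v 1).val * d) else 0) +
      sgn * (if (e : ZMod N) = -v 0 then ζ ^ ((-v 1).val * d) else 0) -
      (1 + sgn) * (if (e : ZMod N) = 0 then 1 else 0))

/-- coefficient of `Q^M` in `X = wp v - 1/12` -/
def xCoeff {R : Type*} [CommRing R] {N : ℕ} (ζ : R) (v : Idx N) (M : ℕ) : R :=
  if M = 0 then
    if v 0 = 0 then ζ ^ (v 1).val * Ring.inverse ((1 - ζ ^ (v 1).val) ^ 2) else 0
  else ∑ p ∈ M.divisorsAntidiagonal, lamCoeff ζ 1 1 v p.1 p.2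

/-- coefficient of `Q^M` in `wp' v` -/
def yCoeff {R : Type*} [CommRing R] {N : ℕ} (ζ : R) (v : Idx N) (M : ℕ) : R :=
  if M = 0 then
    if v 0 = 0 then
      ζ ^ (v 1).val * (1 + ζ ^ (v 1).val) * Ring.inverse ((1 - ζ ^ (v 1).val) ^ 3)
    else 0
  else ∑ p ∈ M.divisorsAntidiagonal, lamCoeff ζ 2 (-1) v p.1 p.2

/-- `exp(2πi/N)` -/
def zeta (N : ℕ) : ℂ := Complex.exp (2 * π * I / N)

/-- the action of `Aut` on indices: `(a, b) ↦ (a, u b)` -/
def scale {N : ℕ} (u : ZMod N) (v : Idx N) : Idx N := ![v 0, u * v 1]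

end

end FLTA.DeligneSerre.Torsion
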