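/-
[DS S1] row sums of the Weierstrass series: `℘` and `℘'` of `ℤ + ℤτ` as sums over `n` of
`F (e(nτ ± z))`.
-/
import Mathlib
import Fermat.Agent.Bridge.JInjective

set_option autoImplicit false

open Complex Filter Topology PeriodPair
open UpperHalfPlane hiding I
open scoped Real

namespace FLTA.DeligneSerre.Torsion

noncomputable section

/-- `F1 w = Σ d wᵈ` -/
def F1 (w : ℂ) : ℂ := w / (1 - w) ^ 2

/-- `F2 w = Σ d² wᵈ` -/
def F2 (w : ℂ) : ℂ := w * (1 + w) / (1 - w) ^ 3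

/-- `e(z) = exp (2πiz)` -/
def ee (z : ℂ) : ℂ := Complex.exp (2 * π * I * z)

theorem ee_add (z w : ℂ) : ee (z + w) = ee z * ee w := by
  rw [ee, ee, ee, ← Complex.exp_add]; ring_nf

theorem ee_ne_zero (z : ℂ) : ee z ≠ 0 := Complex.exp_ne_zero _

theorem ee_neg (z : ℂ) : ee (-z) = (ee z)⁻¹ := by
  rw [ee, ee, ← Complex.exp_neg]; ring_nf

theorem two_pi_I_ne : (2 * π * I : ℂ) ≠ 0 := by simp [Real.pi_ne_zero]

theorem ee_eq_one_iff (z : ℂ) : ee z = 1 ↔ ∃ m : ℤ, z = m := by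
  rw [ee, Complex.exp_eq_one_iff]
  exact exists_congr fun m => ⟨fun h => mul_left_cancel₀ two_pi_I_ne (h.trans (mul_comm _ _)),
    fun h => by rw [h, mul_comm]⟩

theorem norm_ee (z : ℂ) : ‖ee z‖ = Real.exp (-(2 * π * z.im)) := by
  rw [ee, Complex.norm_exp]; simp

theorem norm_ee_lt_one {z : ℂ} (hz : 0 < z.im) : ‖ee z‖ < 1 := by
  rw [norm_ee, Real.exp_lt_one_iff]
  have := mul_pos Real.two_pi_pos hz
  linarith

theorem F1_inv {w : ℂ} (hw : w ≠ 0) : F1 w⁻¹ = F1 w := by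
  rcases eq_or_ne w 1 with rfl | h1
  · simp
  · have : 1 - w ≠ 0 := sub_ne_zero.mpr (Ne.symm h1)
    have : w - 1 ≠ 0 := sub_ne_zero.mpr h1
    rw [F1, F1]
    field_simp
    ring

theorem F2_inv {w : ℂ} (hw : w ≠ 0) : F2 w⁻¹ = -F2 w := by
  rcases eq_or_ne w 1 with rfl | h1
  · simp [F2]
  · have : 1 - w ≠ 0 := sub_ne_zero.mpr (Ne.symm h1)
    have : w - 1 ≠ 0 := sub_ne_zero.mpr h1
    rw [F2, F2]
    field_simp
    ring

theorem hasSum_F1 {w : ℂ} (hw : ‖w‖ < 1) : HasSum (fun d : ℕ => (d : ℂ) * w ^ d) (F1 w) :=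
  hasSum_coe_mul_geometric_of_norm_lt_one hw

theorem hasSum_F2 {w : ℂ} (hw : ‖w‖ < 1) : HasSum (fun d : ℕ => (d : ℂ) ^ 2 * w ^ d) (F2 w) := by
  have h1 : (1 - w) ≠ 0 := sub_ne_zero.mpr fun h => by simp [← h] at hw
  have h := ((((hasSum_choose_mul_geometric_of_norm_lt_one' 2 hw).mul_left 2).sub
    ((hasSum_coe_mul_geometric_of_norm_lt_one hw).mul_left 3)).sub
    ((hasSum_geometric_of_norm_lt_one hw).mul_left 2))
  have e : F2 w = 2 * Ring.inverse (1 - w) ^ (2 + 1) - 3 * (w / (1 - w) ^ 2) - 2 * (1 - w)⁻¹ := by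
    rw [show Ring.inverse (1 - w) = (1 - w)⁻¹ from Ring.inverse_eq_inv _, F2, inv_pow]
    field_simp
    ring
  rw [e]
  refine h.congr_fun fun n => ?_
  have h2 : (2 : ℂ) * ((n + 2).choose 2 : ℂ) = ((n : ℂ) + 2) * ((n : ℂ) + 1) := by
    rw [Nat.cast_choose_two]; push_cast; ring
  linear_combination -(w ^ n) * h2

/-- `Σ_m (w+m)^-(k+1)` -/
def rowSum (k : ℕ) (w : ℂ) : ℂ := ∑' m : ℤ, 1 / (w + m) ^ (k + 1)

theorem rowSum_one_of_im_pos {w : ℂ} (hw : 0 < w.im) :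
    rowSum 1 w = (2 * π * I) ^ 2 * F1 (ee w) := by
  have := EisensteinSeries.qExpansion_identity (k := 1) le_rfl ⟨w, hw⟩
  rw [rowSum, this, show (∑' n : ℕ, (n : ℂ) ^ 1 * Complex.exp (2 * π * I * w) ^ n) = F1 (ee w) by
    simpa only [pow_one, ee] using (hasSum_F1 (norm_ee_lt_one hw)).tsum_eq]
  simp

theorem rowSum_two_of_im_pos {w : ℂ} (hw : 0 < w.im) :
    rowSum 2 w = -(2 * π * I) ^ 3 / 2 * F2 (ee w) := by
  have := EisensteinSeries.qExpansion_identity (k := 2) (by norm_num) ⟨w, hw⟩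
  rw [rowSum, this, show (∑' n : ℕ, (n : ℂ) ^ 2 * Complex.exp (2 * π * I * w) ^ n) = F2 (ee w) from
    (hasSum_F2 (norm_ee_lt_one hw)).tsum_eq]
  rw [show ((Nat.factorial 2 : ℕ) : ℂ) = 2 by norm_num [Nat.factorial]]
  ring

theorem rowSum_neg (k : ℕ) (w : ℂ) : rowSum k (-w) = (-1) ^ (k + 1) * rowSum k w := by
  rw [rowSum, ← (Equiv.neg ℤ).tsum_eq, rowSum, ← tsum_mul_left]
  refine tsum_congr fun m => ?_
  rw [Equiv.neg_apply, show -w + ((-m : ℤ) : ℂ) = (-1) * (w + m) by push_cast; ring, mul_pow]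
  rw [one_div, one_div, mul_inv, ← inv_pow, inv_neg, inv_one]

theorem tendsto_rowSum {k : ℕ} (hk : 1 ≤ k) {w : ℂ} (hw : w.im = 0) (hz : ∀ m : ℤ, w + m ≠ 0) :
    Tendsto (fun ε : ℝ => rowSum k (w + ε * I)) (𝓝[>] 0) (𝓝 (rowSum k w)) := by
  refine tendsto_tsum_of_dominated_convergence (bound := fun m : ℤ => |((w.re + m) ^ (k + 1))⁻¹|)
    ?_ (fun m => ?_) ?_
  · refine ((Real.summable_one_div_int_add_rpow w.re ((k + 1 : ℕ) : ℝ)).mpr
      (by exact_mod_cast Nat.lt_succ_iff.mpr hk)).congr fun m => ?_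
    rw [Real.rpow_natCast, abs_inv, abs_pow, one_div, add_comm]
  · refine Tendsto.mono_left (Continuous.tendsto' ?_ 0 _ (by simp)) nhdsWithin_le_nhds
    refine Continuous.div continuous_const (by fun_prop) fun ε => pow_ne_zero _ fun h => hz m ?_
    have h1 : ε = 0 := by simpa [hw] using congrArg Complex.im h
    simpa [h1] using h
  · filter_upwards with ε m
    have hne : w.re + (m : ℝ) ≠ 0 := fun h => hz m (Complex.ext (by simpa using h) (by simpa using hw))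
    rw [norm_div, norm_one, norm_pow, one_div, abs_inv, abs_pow]
    refine inv_anti₀ (pow_pos (abs_pos.mpr hne) _) (pow_le_pow_left₀ (abs_nonneg _) ?_ _)
    simpa using Complex.abs_re_le_norm (w + ε * I + m)

theorem rowSum_one {w : ℂ} (hz : ∀ m : ℤ, w + m ≠ 0) :
    rowSum 1 w = (2 * π * I) ^ 2 * F1 (ee w) := by
  rcases lt_trichotomy w.im 0 with h | h | h
  · have := rowSum_one_of_im_pos (w := -w) (by simpa using h)
    rw [rowSum_neg, ee_neg, F1_inv (ee_ne_zero w)] at this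
    simpa using this
  · have hne : ee w ≠ 1 := fun he => by
      obtain ⟨m, hm⟩ := (ee_eq_one_iff w).mp he
      exact hz (-m) (by rw [hm]; simp)
    refine tendsto_nhds_unique (tendsto_rowSum le_rfl h hz) ?_
    have hc : Tendsto (fun ε : ℝ => (2 * π * I) ^ 2 * F1 (ee (w + ε * I))) (𝓝[>] 0)
        (𝓝 ((2 * π * I) ^ 2 * F1 (ee w))) := by
      refine Tendsto.mono_left ?_ nhdsWithin_le_nhds
      have hF : ContinuousAt F1 (ee w) := by
        unfold F1
        exact continuousAt_id.div (by fun_prop) (pow_ne_zero _ (sub_ne_zero.mpr (Ne.symm hne)))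
      exact ((hF.tendsto.comp (Continuous.tendsto' (f := fun ε : ℝ => ee (w + ε * I))
        (by unfold ee; fun_prop) 0 _ (by simp))).const_mul _)
    refine hc.congr' ?_
    filter_upwards [self_mem_nhdsWithin] with ε hε
    rw [rowSum_one_of_im_pos (by simpa [h] using hε)]
  · exact rowSum_one_of_im_pos h

theorem rowSum_two {w : ℂ} (hz : ∀ m : ℤ, w + m ≠ 0) :
    rowSum 2 w = -(2 * π * I) ^ 3 / 2 * F2 (ee w) := by
  rcases lt_trichotomy w.im 0 with h | h | h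
  · have := rowSum_two_of_im_pos (w := -w) (by simpa using h)
    rw [rowSum_neg, ee_neg, F2_inv (ee_ne_zero w)] at this
    linear_combination -this
  · have hne : ee w ≠ 1 := fun he => by
      obtain ⟨m, hm⟩ := (ee_eq_one_iff w).mp he
      exact hz (-m) (by rw [hm]; simp)
    refine tendsto_nhds_unique (tendsto_rowSum one_le_two h hz) ?_
    have hc : Tendsto (fun ε : ℝ => -(2 * π * I) ^ 3 / 2 * F2 (ee (w + ε * I))) (𝓝[>] 0)
        (𝓝 (-(2 * π * I) ^ 3 / 2 * F2 (ee w))) := by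
      refine Tendsto.mono_left ?_ nhdsWithin_le_nhds
      have hF : ContinuousAt F2 (ee w) := by
        unfold F2
        exact (by fun_prop : ContinuousAt (fun u : ℂ => u * (1 + u)) (ee w)).div (by fun_prop)
          (pow_ne_zero _ (sub_ne_zero.mpr (Ne.symm hne)))
      exact ((hF.tendsto.comp (Continuous.tendsto' (f := fun ε : ℝ => ee (w + ε * I))
        (by unfold ee; fun_prop) 0 _ (by simp))).const_mul _)
    refine hc.congr' ?_
    filter_upwards [self_mem_nhdsWithin] with ε hε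
    rw [rowSum_two_of_im_pos (by simpa [h] using hε)]
  · exact rowSum_two_of_im_pos h

theorem rowSum_one_zero : rowSum 1 0 = π ^ 2 / 3 := by
  have h : HasSum (fun n : ℕ => 1 / ((n : ℂ)) ^ 2) ((π : ℂ) ^ 2 / 6) := by
    have := Complex.hasSum_ofReal.mpr hasSum_zeta_two
    push_cast at this
    exact this
  have h' : HasSum (fun n : ℕ => 1 / ((n : ℂ) + 1) ^ 2) ((π : ℂ) ^ 2 / 6) := by
    have := (hasSum_nat_add_iff' (f := fun n : ℕ => 1 / ((n : ℂ)) ^ 2) 1).mpr h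
    simpa using this
  have : HasSum (fun m : ℤ => 1 / ((0 : ℂ) + m) ^ (1 + 1)) ((π : ℂ) ^ 2 / 6 + (π : ℂ) ^ 2 / 6) := by
    refine HasSum.of_nat_of_neg_add_one (by simpa using h) (h'.congr_fun fun n => ?_)
    push_cast; ring_nf
  rw [rowSum, this.tsum_eq]; ring

theorem notMem_lattice_add {τ : ℍ} {z : ℂ} (hz : z ∉ (Bridge.periodPairOf τ).lattice) (n m : ℤ) :
    (n : ℂ) * τ - z + m ≠ 0 := fun h => hz (PeriodPair.mem_lattice.mpr
  ⟨m, n, show (m : ℂ) * 1 + (n : ℂ) * (τ : ℂ) = z by linear_combination h⟩)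

theorem notInt_of_ne {τ : ℍ} {n : ℤ} (hn : n ≠ 0) (m : ℤ) : (n : ℂ) * τ + m ≠ 0 := fun h => by
  have := congrArg Complex.im h
  simp [hn, τ.im_pos.ne'] at this

theorem latticeEquivProd_symm_coe (τ : ℍ) (x : ℤ × ℤ) :
    (((Bridge.periodPairOf τ).latticeEquivProd.symm x : (Bridge.periodPairOf τ).lattice) : ℂ) =
      x.1 + x.2 * τ := by
  rw [PeriodPair.latticeEquiv_symm_apply]
  show (x.1 : ℂ) * 1 + x.2 * (τ : ℂ) = _
  rw [mul_one]

/-- row decomposition of `℘` -/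
theorem hasSum_rows_weierstrassP (τ : ℍ) {z : ℂ} (hz : z ∉ (Bridge.periodPairOf τ).lattice) :
    HasSum (fun n : ℕ => F1 (ee (((n : ℕ) + 1 : ℕ) * τ + z)) + F1 (ee (((n : ℕ) + 1 : ℕ) * τ - z))
        - 2 * F1 (ee (((n : ℕ) + 1 : ℕ) * τ)))
      (℘[Bridge.periodPairOf τ] z / (2 * π * I) ^ 2 - 1 / 12 - F1 (ee z)) := by
  set L := Bridge.periodPairOf τ
  set c : ℂ := (2 * π * I) ^ 2 with hc
  have hc0 : c ≠ 0 := pow_ne_zero _ two_pi_I_ne
  let e : ℤ × ℤ ≃ L.lattice := (Equiv.prodComm ℤ ℤ).trans L.latticeEquivProd.symm.toEquiv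
  have he : ∀ p : ℤ × ℤ, ((e p : L.lattice) : ℂ) = p.2 + p.1 * τ := fun p =>
    latticeEquivProd_symm_coe τ (p.2, p.1)
  have h0 := e.hasSum_iff.mpr (L.hasSum_weierstrassP z)
  let A : ℤ → ℂ := fun n => F1 (ee (n * τ - z)) * c -
    if n = 0 then (π : ℂ) ^ 2 / 3 else F1 (ee (n * τ)) * c
  have hsum1 : ∀ w : ℂ, Summable fun m : ℤ => 1 / (w + m) ^ 2 := fun w => by
    simpa [add_comm, one_div] using EisensteinSeries.linear_right_summable w 1 (k := 2) le_rfl
  have hfib : HasSum A (℘[L] z) := by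
    refine h0.prod_fiberwise fun n => ?_
    have h1 : HasSum (fun m : ℤ => 1 / ((n : ℂ) * τ - z + m) ^ 2)
        (F1 (ee (n * τ - z)) * c) := by
      rw [show F1 (ee (n * τ - z)) * c = rowSum 1 ((n : ℂ) * τ - z) by
        rw [rowSum_one (notMem_lattice_add hz n)]; ring]
      exact (hsum1 _).hasSum
    have h2 : HasSum (fun m : ℤ => 1 / ((n : ℂ) * τ + m) ^ 2)
        (if n = 0 then (π : ℂ) ^ 2 / 3 else F1 (ee (n * τ)) * c) := by
      split_ifs with h
      · subst h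
        rw [← rowSum_one_zero]
        simpa [rowSum] using (hsum1 0).hasSum
      · rw [show F1 (ee (n * τ)) * c = rowSum 1 ((n : ℂ) * τ) by
          rw [rowSum_one (notInt_of_ne h)]; ring]
        exact (hsum1 _).hasSum
    refine (h1.sub h2).congr_fun fun m => ?_
    simp only [Function.comp_apply, he]
    ring
  have h3 := (hfib.div_const c).nat_add_neg
  rw [← hasSum_nat_add_iff' 1] at h3
  have hA0 : A 0 / c = F1 (ee z) + 1 / 12 := by
    simp only [A, ↓reduceIte, Int.cast_zero, zero_mul, zero_sub, ee_neg, F1_inv (ee_ne_zero z)]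
    rw [hc]
    have hπ : (π : ℂ) ≠ 0 := Complex.ofReal_ne_zero.mpr Real.pi_ne_zero
    field_simp
    rw [Complex.I_sq]
    ring
  simp only [Finset.sum_range_one, Nat.cast_zero, neg_zero] at h3
  rw [show ℘[L] z / c + A 0 / c - (A 0 / c + A 0 / c) = ℘[L] z / c - 1 / 12 - F1 (ee z) by
    rw [hA0]; ring] at h3
  refine h3.congr_fun fun n => ?_
  have hn : ((n + 1 : ℕ) : ℤ) ≠ 0 := by omega
  simp only [A, if_neg hn, if_neg (neg_ne_zero.mpr hn), Int.cast_neg, Int.cast_natCast, neg_mul]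
  rw [show -(((n + 1 : ℕ) : ℂ) * τ) - z = -(((n + 1 : ℕ) : ℂ) * τ + z) by ring, ee_neg, ee_neg,
    F1_inv (ee_ne_zero _), F1_inv (ee_ne_zero _)]
  field_simp
  ring

/-- row decomposition of `℘'` -/
theorem hasSum_rows_derivWeierstrassP (τ : ℍ) {z : ℂ}
    (hz : z ∉ (Bridge.periodPairOf τ).lattice) :
    HasSum (fun n : ℕ => F2 (ee (((n : ℕ) + 1 : ℕ) * τ + z)) - F2 (ee (((n : ℕ) + 1 : ℕ) * τ - z)))
      (℘'[Bridge.periodPairOf τ] z / (2 * π * I) ^ 3 - F2 (ee z)) := by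
  set L := Bridge.periodPairOf τ
  set c : ℂ := (2 * π * I) ^ 3 with hc
  have hc0 : c ≠ 0 := pow_ne_zero _ two_pi_I_ne
  let e : ℤ × ℤ ≃ L.lattice := (Equiv.prodComm ℤ ℤ).trans L.latticeEquivProd.symm.toEquiv
  have he : ∀ p : ℤ × ℤ, ((e p : L.lattice) : ℂ) = p.2 + p.1 * τ := fun p =>
    latticeEquivProd_symm_coe τ (p.2, p.1)
  have h0 := e.hasSum_iff.mpr (L.hasSum_derivWeierstrassP z)
  let A : ℤ → ℂ := fun n => -(F2 (ee (n * τ - z)) * c)
  have hsum1 : ∀ w : ℂ, Summable fun m : ℤ => 1 / (w + m) ^ 3 := fun w => by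
    simpa [add_comm, one_div] using EisensteinSeries.linear_right_summable w 1 (k := 3) (by norm_num)
  have hfib : HasSum A (℘'[L] z) := by
    refine h0.prod_fiberwise fun n => ?_
    have h1 : HasSum (fun m : ℤ => 1 / ((n : ℂ) * τ - z + m) ^ 3)
        (-c / 2 * F2 (ee (n * τ - z))) := by
      rw [hc, ← rowSum_two (notMem_lattice_add hz n)]
      exact (hsum1 _).hasSum
    have h2 := h1.mul_left 2
    rw [show 2 * (-c / 2 * F2 (ee (n * τ - z))) = A n by simp only [A]; ring] at h2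
    refine h2.congr_fun fun m => ?_
    simp only [Function.comp_apply, he]
    rw [show z - ((m : ℂ) + (n : ℂ) * τ) = -((n : ℂ) * τ - z + m) by ring,
      (show Odd 3 by decide).neg_pow, neg_div_neg_eq]
    ring
  have h3 := (hfib.div_const c).nat_add_neg
  rw [← hasSum_nat_add_iff' 1] at h3
  have hA0 : A 0 / c = F2 (ee z) := by
    simp only [A, Int.cast_zero, zero_mul, zero_sub, ee_neg, F2_inv (ee_ne_zero z)]
    field_simp
  simp only [Finset.sum_range_one, Nat.cast_zero, neg_zero] at h3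
  rw [show ℘'[L] z / c + A 0 / c - (A 0 / c + A 0 / c) = ℘'[L] z / c - F2 (ee z) by
    rw [hA0]; ring] at h3
  refine h3.congr_fun fun n => ?_
  simp only [A, Int.cast_neg, Int.cast_natCast, neg_mul]
  rw [show -(((n + 1 : ℕ) : ℂ) * τ) - z = -(((n + 1 : ℕ) : ℂ) * τ + z) by ring, ee_neg (_ + z),
    F2_inv (ee_ne_zero _)]
  field_simp
  ring

end

end FLTA.DeligneSerre.Torsion
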