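/-
[DS S1] `Q`-expansions of the division values, `Q = e^(2πiτ/N)`.
-/
import Fermat.Agent.DeligneSerre.Torsion.Basic
import Fermat.Agent.DeligneSerre.Torsion.LatticeSum

set_option autoImplicit false

open Complex Filter Topology PeriodPair
open UpperHalfPlane hiding I
open scoped Real

namespace FLTA.DeligneSerre.Torsion

noncomputable section

variable {N : ℕ} [NeZero N]

theorem natCast_N_ne_zero : (N : ℂ) ≠ 0 := Nat.cast_ne_zero.mpr (NeZero.ne N)

theorem pt_mem_lattice_iff (v : Idx N) (τ : ℍ) : pt v τ ∈ (lat τ).lattice ↔ v = 0 := by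
  constructor
  · intro h
    obtain ⟨m, n, hmn⟩ := PeriodPair.mem_lattice.mp h
    have e : (m : ℂ) * 1 + (n : ℂ) * (τ : ℂ) = pt v τ := hmn
    have hN : (N : ℝ) ≠ 0 := Nat.cast_ne_zero.mpr (NeZero.ne N)
    have him := congrArg Complex.im e
    simp [pt, -ZMod.natCast_val, field] at him
    have hb := congrArg Complex.re e
    simp [pt, -ZMod.natCast_val, field] at hb
    have hn : n = 0 := by
      have h1 : (v 0).val < N := ZMod.val_lt _
      have h2 : ((v 0).val : ℤ) = n * N := by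
        have : ((v 0).val : ℝ) = n * N := him.symm
        exact_mod_cast this
      rcases lt_trichotomy n 0 with hn | hn | hn
      · nlinarith [(Int.natCast_nonneg (v 0).val)]
      · exact hn
      · nlinarith
    have hv0 : (v 0).val = 0 := by
      have : ((v 0).val : ℝ) = 0 := by rw [← him, hn]; simp
      exact_mod_cast this
    have hv1 : (v 1).val = 0 := by
      have h2 : ((v 1).val : ℤ) = m * N := by
        have : ((v 1).val : ℝ) = m * N := by rw [hn, hv0] at hb; simp [-ZMod.natCast_val] at hb; linarith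
        exact_mod_cast this
      have h1 : (v 1).val < N := ZMod.val_lt _
      rcases lt_trichotomy m 0 with hm | hm | hm
      · nlinarith [(Int.natCast_nonneg (v 1).val)]
      · subst hm; simpa [-ZMod.natCast_val] using h2
      · nlinarith
    funext i
    fin_cases i
    · exact (ZMod.val_eq_zero _).mp hv0
    · exact (ZMod.val_eq_zero _).mp hv1
  · rintro rfl
    simp [pt]

/-- summand at `e` of one of the three families -/
def fam (F : ℂ → ℂ) (c : ℂ) (a : ZMod N) (Q : ℂ) (e : ℕ) : ℂ :=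
  if e ≠ 0 ∧ (e : ZMod N) = a then F (c * Q ^ e) else 0

theorem norm_F1_le {w : ℂ} {r : ℝ} (hr : r < 1) (hw : ‖w‖ ≤ r) :
    ‖F1 w‖ ≤ ((1 - r) ^ 2)⁻¹ * ‖w‖ := by
  have h : 1 - r ≤ ‖1 - w‖ := by
    have := norm_sub_norm_le (1 : ℂ) w
    simp at this
    linarith
  rw [F1, norm_div, norm_pow, div_eq_inv_mul]
  gcongr

theorem norm_F2_le {w : ℂ} {r : ℝ} (hr : r < 1) (hw : ‖w‖ ≤ r) :
    ‖F2 w‖ ≤ (2 * ((1 - r) ^ 3)⁻¹) * ‖w‖ := by
  have h : 1 - r ≤ ‖1 - w‖ := by
    have := norm_sub_norm_le (1 : ℂ) w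
    simp at this
    linarith
  have h2 : ‖1 + w‖ ≤ 2 := (norm_add_le _ _).trans (by simp; linarith)
  rw [F2, norm_div, norm_mul, norm_pow, div_eq_inv_mul, mul_comm 2, mul_assoc]
  refine mul_le_mul (inv_anti₀ (pow_pos (by linarith) _) (pow_le_pow_left₀ (by linarith) h _)) ?_
    (by positivity) (inv_nonneg.mpr (pow_nonneg (by linarith) _))
  rw [mul_comm 2]
  exact mul_le_mul_of_nonneg_left h2 (norm_nonneg _)

theorem summable_family {F : ℂ → ℂ} {B : ℝ} {r : ℝ}
    (hF : ∀ w : ℂ, ‖w‖ ≤ r → ‖F w‖ ≤ B * ‖w‖) {c Q : ℂ} (hc : ‖c‖ = 1) (hQ : ‖Q‖ ≤ r)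
    (hr : r < 1) (a : ZMod N) : Summable (fam F c a Q) := by
  have hr0 : 0 ≤ r := (norm_nonneg _).trans hQ
  refine Summable.of_norm_bounded ((summable_geometric_of_lt_one hr0 hr).mul_left |B|) fun e => ?_
  unfold fam
  split_ifs with h
  · have hle : ‖c * Q ^ e‖ ≤ r ^ e := by
      rw [norm_mul, hc, one_mul, norm_pow]; exact pow_le_pow_left₀ (norm_nonneg _) hQ _
    exact (hF _ (hle.trans (pow_le_of_le_one hr0 hr.le h.1))).trans
      (mul_le_mul (le_abs_self B) hle (norm_nonneg _) (abs_nonneg B))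
  · simp [mul_nonneg, pow_nonneg hr0, abs_nonneg]

theorem norm_qParam_lt_one (τ : ℍ) : ‖Function.Periodic.qParam N τ‖ < 1 := by
  rw [Function.Periodic.norm_qParam, Real.exp_lt_one_iff]
  have : (0 : ℝ) < N := Nat.cast_pos.mpr (Nat.pos_of_ne_zero (NeZero.ne N))
  exact div_neg_of_neg_of_pos (by nlinarith [Real.pi_pos, τ.2]) this

theorem norm_zeta_pow (b : ℕ) : ‖zeta N ^ b‖ = 1 := by
  rw [norm_pow, zeta, show 2 * π * I / (N : ℂ) = ((2 * π / N : ℝ) : ℂ) * I by push_cast; ring,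
    Complex.norm_exp_ofReal_mul_I, one_pow]

theorem zeta_pow_N : zeta N ^ N = 1 := by
  rw [zeta, ← Complex.exp_nat_mul, mul_div_cancel₀ _ natCast_N_ne_zero, Complex.exp_two_pi_mul_I]

theorem zeta_pow_congr {i j : ℕ} (h : (i : ZMod N) = j) : zeta N ^ i = zeta N ^ j :=
  pow_eq_pow_of_modEq ((ZMod.natCast_eq_natCast_iff _ _ _).mp h) zeta_pow_N

theorem zeta_pow_neg_val (b : ZMod N) : zeta N ^ (-b).val = (zeta N ^ b.val)⁻¹ := by
  refine eq_inv_of_mul_eq_one_left ?_
  rw [← pow_add, ← pow_zero (zeta N)]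
  exact zeta_pow_congr (by simp)

theorem qParam_pow_N (τ : ℍ) : Function.Periodic.qParam N τ ^ N = ee τ := by
  rw [Function.Periodic.qParam, ee, ← Complex.exp_nat_mul]
  congr 1
  push_cast
  have := natCast_N_ne_zero (N := N)
  field_simp

theorem ee_pt (v : Idx N) (τ : ℍ) :
    ee (pt v τ) = zeta N ^ (v 1).val * Function.Periodic.qParam N τ ^ (v 0).val := by
  rw [ee, pt, Function.Periodic.qParam, zeta, ← Complex.exp_nat_mul, ← Complex.exp_nat_mul,
    ← Complex.exp_add]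
  congr 1
  push_cast
  ring

theorem ee_natCast_mul (n : ℕ) (τ : ℍ) :
    ee ((n : ℂ) * τ) = Function.Periodic.qParam N τ ^ (n * N) := by
  rw [mul_comm n N, pow_mul, qParam_pow_N, ee, ee, ← Complex.exp_nat_mul]
  ring_nf

theorem ee_natCast_mul_add_pt (n : ℕ) (v : Idx N) (τ : ℍ) :
    ee ((n : ℂ) * τ + pt v τ) =
      zeta N ^ (v 1).val * Function.Periodic.qParam N τ ^ (n * N + (v 0).val) := by
  rw [ee_add, ee_pt, ee_natCast_mul (N := N), pow_add]; ring

theorem ee_natCast_mul_sub_pt (n : ℕ) (v : Idx N) (τ : ℍ) :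
    ee (((n + 1 : ℕ) : ℂ) * τ - pt v τ) =
      zeta N ^ (-v 1).val * Function.Periodic.qParam N τ ^ ((n + 1) * N - (v 0).val) := by
  have hle : (v 0).val ≤ (n + 1) * N :=
    ((ZMod.val_lt _).le.trans (Nat.le_mul_of_pos_left N (Nat.succ_pos n)))
  rw [sub_eq_add_neg, ee_add, ee_neg, ee_pt, ee_natCast_mul (N := N), zeta_pow_neg_val,
    _root_.mul_inv, pow_sub₀ _ (Function.Periodic.qParam_ne_zero _) hle]
  ring

section Regroup

variable (F : ℂ → ℂ) (k : ℕ) (sgn : ℂ)

/-- Both series are obtained by regrouping `Σ_{e,d}`. -/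
theorem hasSum_coeff {v : Idx N} {τ : ℍ} {B : ℝ → ℝ} (hsgn : ‖sgn‖ ≤ 1)
    (hF : ∀ w : ℂ, ‖w‖ < 1 → HasSum (fun d : ℕ => (d : ℂ) ^ k * w ^ d) (F w)) (hk : k ≠ 0)
    (hB : ∀ (w : ℂ) (r : ℝ), r < 1 → ‖w‖ ≤ r → ‖F w‖ ≤ B r * ‖w‖) {T : ℂ}
    (hrows : HasSum (fun n : ℕ =>
      F (ee (((n : ℕ) + 1 : ℕ) * τ + pt v τ)) + sgn * F (ee (((n : ℕ) + 1 : ℕ) * τ - pt v τ))
        - (1 + sgn) * F (ee (((n : ℕ) + 1 : ℕ) * τ))) T) :
    HasSum (fun M : ℕ => if M = 0 then 0 else
        (∑ p ∈ M.divisorsAntidiagonal, lamCoeff (zeta N) k sgn v p.1 p.2) *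
          Function.Periodic.qParam N τ ^ M)
      (T + if v 0 = 0 then 0 else F (ee (pt v τ))) := by
  set Q := Function.Periodic.qParam N τ
  set ζ := zeta N
  set a := (v 0).val
  have hQ : ‖Q‖ < 1 := norm_qParam_lt_one τ
  set E1 := fam F (ζ ^ (v 1).val) (v 0) Q
  set E2 := fam F (ζ ^ (-v 1).val) (-v 0) Q
  set E3 := fam F 1 (0 : ZMod N) Q
  have s1 : Summable E1 := summable_family (hB · _ hQ) (norm_zeta_pow _) le_rfl hQ _
  have s2 : Summable E2 := summable_family (hB · _ hQ) (norm_zeta_pow _) le_rfl hQ _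
  have s3 : Summable E3 := summable_family (hB · _ hQ) norm_one le_rfl hQ _
  have ha : a < N := ZMod.val_lt _
  have hfun1 : Function.Injective fun n : ℕ => n * N + a := fun x y h => by
    simpa [NeZero.ne N] using h
  have hfun2 : Function.Injective fun n : ℕ => (n + 1) * N - a := fun x y h => by
    have hx : a ≤ (x + 1) * N := ha.le.trans (Nat.le_mul_of_pos_left N (Nat.succ_pos x))
    have hy : a ≤ (y + 1) * N := ha.le.trans (Nat.le_mul_of_pos_left N (Nat.succ_pos y))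
    have : (x + 1) * N = (y + 1) * N := by simp only at h; omega
    simpa [NeZero.ne N] using this
  have hfun3 : Function.Injective fun n : ℕ => (n + 1) * N := fun x y h => by
    simpa [NeZero.ne N] using h
  have hr1 : ∀ e : ℕ, e ∉ Set.range (fun n : ℕ => n * N + a) → E1 e = 0 := fun e he => by
    refine if_neg fun h => he ⟨e / N, ?_⟩
    have : e % N = a := by
      show e % N = (v 0).val
      rw [← h.2, ZMod.val_natCast]
    rw [← this]
    exact Nat.div_add_mod' e N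
  have hr2 : ∀ e : ℕ, e ∉ Set.range (fun n : ℕ => (n + 1) * N - a) → E2 e = 0 := fun e he => by
    refine if_neg fun h => he ?_
    have h0 : ((e + a : ℕ) : ZMod N) = 0 := by
      rw [Nat.cast_add, h.2, ZMod.natCast_zmod_val, neg_add_cancel]
    obtain ⟨q, hq⟩ := (ZMod.natCast_eq_zero_iff _ _).mp h0
    obtain ⟨n, rfl⟩ : ∃ n, q = n + 1 := ⟨q - 1, by
      rcases q with _ | q
      · simp at hq; exact absurd hq.1 h.1
      · rfl⟩
    exact ⟨n, by show (n + 1) * N - a = e; rw [mul_comm, ← hq]; omega⟩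
  have hr3 : ∀ e : ℕ, e ∉ Set.range (fun n : ℕ => (n + 1) * N) → E3 e = 0 := fun e he => by
    refine if_neg fun h => he ?_
    obtain ⟨q, hq⟩ := (ZMod.natCast_eq_zero_iff _ _).mp h.2
    obtain ⟨n, rfl⟩ : ∃ n, q = n + 1 := ⟨q - 1, by
      rcases q with _ | q
      · simp at hq; exact absurd hq h.1
      · rfl⟩
    exact ⟨n, by rw [hq, mul_comm]⟩
  have t1 : HasSum (fun n : ℕ => F (ee (((n : ℕ) + 1 : ℕ) * τ + pt v τ)))
      ((∑' e, E1 e) - if v 0 = 0 then 0 else F (ee (pt v τ))) := by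
    have h := (hfun1.hasSum_iff hr1).mpr s1.hasSum
    rw [← hasSum_nat_add_iff' 1] at h
    have h0 : E1 (0 * N + a) = if v 0 = 0 then 0 else F (ee (pt v τ)) := by
      simp only [zero_mul, zero_add, E1, fam, a]
      by_cases hv : v 0 = 0
      · rw [if_pos hv, if_neg (by simp [hv])]
      · rw [if_neg hv, if_pos ⟨fun h => hv ((ZMod.val_eq_zero _).mp h), ZMod.natCast_zmod_val _⟩,
          ee_pt]
    simp only [Finset.sum_range_one, Function.comp_apply, h0] at h
    refine h.congr_fun fun n => ?_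
    have hne : (n + 1) * N + a ≠ 0 := by have := NeZero.ne N; positivity
    simp only [Function.comp_apply, E1, fam]
    rw [if_pos ⟨hne, by simp [a]⟩, ee_natCast_mul_add_pt]
  have t2 : HasSum (fun n : ℕ => F (ee (((n : ℕ) + 1 : ℕ) * τ - pt v τ))) (∑' e, E2 e) := by
    refine ((hfun2.hasSum_iff hr2).mpr s2.hasSum).congr_fun fun n => ?_
    have hle : a < (n + 1) * N := ha.trans_le (Nat.le_mul_of_pos_left N (Nat.succ_pos n))
    simp only [Function.comp_apply, E2, fam]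
    rw [if_pos ⟨by omega, by rw [Nat.cast_sub hle.le]; simp [a]⟩, ee_natCast_mul_sub_pt]
  have t3 : HasSum (fun n : ℕ => F (ee (((n : ℕ) + 1 : ℕ) * τ))) (∑' e, E3 e) := by
    refine ((hfun3.hasSum_iff hr3).mpr s3.hasSum).congr_fun fun n => ?_
    simp only [Function.comp_apply, E3, fam]
    rw [if_pos ⟨by have := NeZero.ne N; positivity, by simp⟩, one_mul, ee_natCast_mul (N := N)]
  have hT : T = (∑' e, E1 e) - (if v 0 = 0 then 0 else F (ee (pt v τ))) + sgn * (∑' e, E2 e)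
      - (1 + sgn) * (∑' e, E3 e) :=
    hrows.unique ((t1.add (t2.mul_left sgn)).sub (t3.mul_left (1 + sgn)))
  let G : ℕ+ × ℕ+ → ℂ := fun p => lamCoeff ζ k sgn v p.1 p.2 * Q ^ ((p.1 : ℕ) * p.2)
  have hGs : Summable G := by
    refine Summable.of_norm_bounded ((summable_prod_mul_pow k (r := ‖Q‖)
      (by rwa [norm_norm])).mul_left 4) fun p => ?_
    simp only [G, lamCoeff]
    rw [norm_mul, norm_mul, norm_pow, norm_pow, Complex.norm_natCast,
      show (4 : ℝ) * ((((p.2 : ℕ) : ℝ)) ^ k * ‖Q‖ ^ ((p.1 : ℕ) * (p.2 : ℕ))) =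
        ((p.2 : ℕ) : ℝ) ^ k * 4 * ‖Q‖ ^ ((p.1 : ℕ) * (p.2 : ℕ)) by ring]
    gcongr
    have h1 : ∀ (P : Prop) [Decidable P] (n : ℕ), ‖(if P then ζ ^ n else 0 : ℂ)‖ ≤ 1 :=
      fun P _ n => by
        split_ifs
        · exact (norm_zeta_pow n).le
        · simp
    have h1' : ∀ (P : Prop) [Decidable P], ‖(if P then 1 else 0 : ℂ)‖ ≤ 1 := fun P _ => by
      split_ifs <;> simp
    refine (norm_sub_le _ _).trans (le_trans (add_le_add ((norm_add_le _ _).trans
      (add_le_add (h1 _ _) (le_of_eq_of_le (norm_mul _ _) (mul_le_one₀ hsgn (norm_nonneg _) (h1 _ _)))))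
      (le_of_eq_of_le (norm_mul _ _) (mul_le_mul ((norm_add_le _ _).trans
        (add_le_add norm_one.le hsgn)) (h1' _) (norm_nonneg _) (by norm_num))))
      (by norm_num))
  have hpow : ∀ (c : ℂ) (e : ℕ+), ‖c‖ = 1 →
      HasSum (fun d : ℕ+ => ((d : ℕ) : ℂ) ^ k * (c * Q ^ (e : ℕ)) ^ (d : ℕ))
        (F (c * Q ^ (e : ℕ))) := fun c e hc => by
    have hlt : ‖c * Q ^ (e : ℕ)‖ < 1 := by
      rw [norm_mul, hc, one_mul, norm_pow]; exact pow_lt_one₀ (norm_nonneg _) hQ e.ne_zero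
    refine (PNat.coe_injective.hasSum_iff fun d hd => ?_).mpr (hF _ hlt)
    have : d = 0 := by
      by_contra h; exact hd ⟨⟨d, Nat.pos_of_ne_zero h⟩, rfl⟩
    simp [this, hk]
  have hfibG : ∀ e : ℕ+, HasSum (fun d : ℕ+ => G (e, d))
      (E1 e + sgn * E2 e - (1 + sgn) * E3 e) := by
    intro e
    have key : ∀ (a' : ZMod N) (m : ℕ), HasSum (fun d : ℕ+ => ((d : ℕ) : ℂ) ^ k *
        (if ((e : ℕ) : ZMod N) = a' then ζ ^ (m * (d : ℕ)) else 0) * Q ^ ((e : ℕ) * d))
        (fam F (ζ ^ m) a' Q e) := by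
      intro a' m
      unfold fam
      by_cases h : ((e : ℕ) : ZMod N) = a'
      · rw [if_pos ⟨e.ne_zero, h⟩]
        refine (hpow _ e (norm_zeta_pow m)).congr_fun fun d => ?_
        rw [if_pos h, mul_pow, ← pow_mul, ← pow_mul]; ring
      · rw [if_neg (fun h' => h h'.2)]
        simp [h, hasSum_zero]
    have k3 := key 0 0
    simp only [zero_mul, pow_zero] at k3
    refine (((key (v 0) (v 1).val).add ((key (-v 0) (-v 1).val).mul_left sgn)).sub
      (k3.mul_left (1 + sgn))).congr_fun fun d => ?_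
    simp only [G, lamCoeff]
    ring
  have hE : ∀ {E : ℕ → ℂ}, E 0 = 0 → Summable E →
      HasSum (fun e : ℕ+ => E e) (∑' e, E e) := fun {E} hE0 hs => by
    refine (PNat.coe_injective.hasSum_iff fun d hd => ?_).mpr hs.hasSum
    have : d = 0 := by
      by_contra h; exact hd ⟨⟨d, Nat.pos_of_ne_zero h⟩, rfl⟩
    rw [this, hE0]
  have htot := (((hE (if_neg (by simp)) s1).add ((hE (if_neg (by simp)) s2).mul_left sgn)).sub
    ((hE (if_neg (by simp)) s3).mul_left (1 + sgn))).unique (hGs.hasSum.prod_fiberwise hfibG)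
  have hsig := ((sigmaAntidiagonalEquivProd.hasSum_iff).mpr hGs.hasSum).sigma
    fun n => hasSum_fintype _
  rw [← htot] at hsig
  have hfin : HasSum (fun M : ℕ+ => if (M : ℕ) = 0 then 0 else
      (∑ p ∈ (M : ℕ).divisorsAntidiagonal, lamCoeff ζ k sgn v p.1 p.2) * Q ^ (M : ℕ))
      (T + if v 0 = 0 then 0 else F (ee (pt v τ))) := by
    rw [show T + (if v 0 = 0 then 0 else F (ee (pt v τ))) =
      (∑' e, E1 e) + sgn * (∑' e, E2 e) - (1 + sgn) * (∑' e, E3 e) by rw [hT]; ring]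
    refine hsig.congr_fun fun M => ?_
    rw [if_neg M.ne_zero, Finset.sum_mul, ← Finset.sum_coe_sort]
    refine Finset.sum_congr rfl fun p _ => ?_
    simp only [Function.comp_apply, G, sigmaAntidiagonalEquivProd, divisorsAntidiagonalFactors,
      Equiv.coe_fn_mk, PNat.mk_coe]
    rw [(Nat.mem_divisorsAntidiagonal.mp p.2).1]
  refine (PNat.coe_injective.hasSum_iff fun d hd => ?_).mp hfin
  have : d = 0 := by
    by_contra h; exact hd ⟨⟨d, Nat.pos_of_ne_zero h⟩, rfl⟩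
  simp [this]

end Regroup

theorem hasSum_wp {v : Idx N} (hv : v ≠ 0) (τ : ℍ) :
    HasSum (fun M : ℕ => xCoeff (zeta N) v M * Function.Periodic.qParam N τ ^ M)
      (wp v τ - 1 / 12) := by
  have hz : pt v τ ∉ (Bridge.periodPairOf τ).lattice := (pt_mem_lattice_iff v τ).not.mpr hv
  have h := hasSum_coeff (N := N) (v := v) (τ := τ) F1 1 1 (by simp)
    (fun w hw => by simpa using hasSum_F1 hw) one_ne_zero
    (fun w r hr hw => norm_F1_le hr hw)
    ((hasSum_rows_weierstrassP τ hz).congr_fun fun n => by norm_num)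
  have h2 := h.add (hasSum_ite_eq 0 (if v 0 = 0 then F1 (ee (pt v τ)) else 0))
  rw [show wp v τ - 1 / 12 = ℘[Bridge.periodPairOf τ] (pt v τ) / (2 * π * I) ^ 2 - 1 / 12
      - F1 (ee (pt v τ)) + (if v 0 = 0 then 0 else F1 (ee (pt v τ)))
      + (if v 0 = 0 then F1 (ee (pt v τ)) else 0) by
    rw [wp, lat]; split_ifs <;> ring]
  refine h2.congr_fun fun M => ?_
  rcases eq_or_ne M 0 with rfl | hM
  · simp only [xCoeff, ↓reduceIte, zero_add, pow_zero, mul_one]
    split_ifs with h0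
    · rw [ee_pt, h0, ZMod.val_zero, pow_zero, mul_one, F1, Ring.inverse_eq_inv, ← div_eq_mul_inv]
    · rfl
  · simp [xCoeff, hM]

theorem hasSum_wp' {v : Idx N} (hv : v ≠ 0) (τ : ℍ) :
    HasSum (fun M : ℕ => yCoeff (zeta N) v M * Function.Periodic.qParam N τ ^ M)
      (wp' v τ) := by
  have hz : pt v τ ∉ (Bridge.periodPairOf τ).lattice := (pt_mem_lattice_iff v τ).not.mpr hv
  have h := hasSum_coeff (N := N) (v := v) (τ := τ) F2 2 (-1) (by simp)
    (fun w hw => hasSum_F2 hw) two_ne_zero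
    (fun w r hr hw => norm_F2_le hr hw)
    ((hasSum_rows_derivWeierstrassP τ hz).congr_fun fun n => by ring)
  have h2 := h.add (hasSum_ite_eq 0 (if v 0 = 0 then F2 (ee (pt v τ)) else 0))
  rw [show wp' v τ = ℘'[Bridge.periodPairOf τ] (pt v τ) / (2 * π * I) ^ 3
      - F2 (ee (pt v τ)) + (if v 0 = 0 then 0 else F2 (ee (pt v τ)))
      + (if v 0 = 0 then F2 (ee (pt v τ)) else 0) by
    rw [wp', lat]; split_ifs <;> ring]
  refine h2.congr_fun fun M => ?_
  rcases eq_or_ne M 0 with rfl | hM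
  · simp only [yCoeff, ↓reduceIte, zero_add, pow_zero, mul_one]
    split_ifs with h0
    · rw [ee_pt, h0, ZMod.val_zero, pow_zero, mul_one, F2, Ring.inverse_eq_inv, ← div_eq_mul_inv]
    · rfl
  · simp [yCoeff, hM]

end

end FLTA.DeligneSerre.Torsion
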