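/-
[DS S1] covariance, symmetry, Weierstrass equation and coefficient algebra of division values.
-/
import Fermat.Agent.DeligneSerre.Torsion.Series
import Fermat.Agent.Mazur.LatticeInvariants

set_option autoImplicit false

open Complex Filter Topology PeriodPair
open UpperHalfPlane hiding I
open scoped Real MatrixGroups ModularForm

namespace FLTA.DeligneSerre.Torsion

variable {N : ℕ}

theorem weierstrassP_congr {L L' : PeriodPair} (h : L.lattice = L'.lattice) (z : ℂ) :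
    ℘[L] z = ℘[L'] z := by
  have h' : (L.lattice : Set ℂ) = L'.lattice := by rw [h]
  exact tsum_congr_set_coe (fun l : ℂ => 1 / (z - l) ^ 2 - 1 / l ^ 2) h'

theorem derivWeierstrassP_congr {L L' : PeriodPair} (h : L.lattice = L'.lattice) (z : ℂ) :
    ℘'[L] z = ℘'[L'] z := by
  have h' : (L.lattice : Set ℂ) = L'.lattice := by rw [h]
  exact congrArg Neg.neg (tsum_congr_set_coe (fun l : ℂ => 2 / (z - l) ^ 3) h')

theorem weierstrassP_scalePair (c : ℂ) (hc : c ≠ 0) (L : PeriodPair) (z : ℂ) :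
    ℘[Bridge.scalePair c hc L] (c * z) = (c ^ 2)⁻¹ * ℘[L] z := by
  rw [PeriodPair.weierstrassP, PeriodPair.weierstrassP, ← tsum_mul_left,
    ← ((Bridge.scalePair c hc L).latticeEquivProd.symm.toEquiv).tsum_eq,
    ← (L.latticeEquivProd.symm.toEquiv).tsum_eq]
  refine tsum_congr fun v => ?_
  rw [Bridge.coe_latticeEquivProd_symm, Bridge.coe_latticeEquivProd_symm]
  simp only [Bridge.scalePair]
  rw [show (v.1 : ℂ) * (c * L.ω₁) + v.2 * (c * L.ω₂) = c * (v.1 * L.ω₁ + v.2 * L.ω₂) by ring,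
    show c * z - c * (v.1 * L.ω₁ + v.2 * L.ω₂) = c * (z - (v.1 * L.ω₁ + v.2 * L.ω₂)) by ring,
    mul_pow, mul_pow, one_div, one_div, mul_inv, mul_inv]
  ring

theorem derivWeierstrassP_scalePair (c : ℂ) (hc : c ≠ 0) (L : PeriodPair) (z : ℂ) :
    ℘'[Bridge.scalePair c hc L] (c * z) = (c ^ 3)⁻¹ * ℘'[L] z := by
  rw [PeriodPair.derivWeierstrassP, PeriodPair.derivWeierstrassP, mul_neg, ← tsum_mul_left,
    ← ((Bridge.scalePair c hc L).latticeEquivProd.symm.toEquiv).tsum_eq,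
    ← (L.latticeEquivProd.symm.toEquiv).tsum_eq]
  congr 1
  refine tsum_congr fun v => ?_
  rw [Bridge.coe_latticeEquivProd_symm, Bridge.coe_latticeEquivProd_symm]
  simp only [Bridge.scalePair]
  rw [show (v.1 : ℂ) * (c * L.ω₁) + v.2 * (c * L.ω₂) = c * (v.1 * L.ω₁ + v.2 * L.ω₂) by ring,
    show c * z - c * (v.1 * L.ω₁ + v.2 * L.ω₂) = c * (z - (v.1 * L.ω₁ + v.2 * L.ω₂)) by ring,
    mul_pow, div_eq_mul_inv, div_eq_mul_inv, mul_inv]
  ring

theorem pt_add_mem {a b a' b' : ℤ} (τ : ℍ) (ha : (N : ℤ) ∣ a - a') (hb : (N : ℤ) ∣ b - b')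
    [NeZero N] :
    ((a : ℂ) * τ + b) / N - ((a' : ℂ) * τ + b') / N ∈ (lat τ).lattice := by
  obtain ⟨x, hx⟩ := ha
  obtain ⟨y, hy⟩ := hb
  refine PeriodPair.mem_lattice.mpr ⟨y, x, ?_⟩
  show (y : ℂ) * 1 + (x : ℂ) * (τ : ℂ) = _
  have hx' : (a : ℂ) - a' = N * x := by exact_mod_cast hx
  have hy' : (b : ℂ) - b' = N * y := by exact_mod_cast hy
  have := natCast_N_ne_zero (N := N)
  field_simp
  linear_combination -(τ : ℂ) * hx' - hy'

/-- the values only depend on integral representatives modulo `N` -/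
theorem weierstrassP_rep [NeZero N] (a b : ℤ) (v : Idx N) (τ : ℍ) (ha : (a : ZMod N) = v 0)
    (hb : (b : ZMod N) = v 1) :
    ℘[lat τ] (((a : ℂ) * τ + b) / N) = ℘[lat τ] (pt v τ) ∧
      ℘'[lat τ] (((a : ℂ) * τ + b) / N) = ℘'[lat τ] (pt v τ) := by
  have h1 : (N : ℤ) ∣ a - (v 0).val := by
    rw [← ZMod.intCast_zmod_eq_zero_iff_dvd]; push_cast; rw [ha, ZMod.natCast_zmod_val, sub_self]
  have h2 : (N : ℤ) ∣ b - (v 1).val := by
    rw [← ZMod.intCast_zmod_eq_zero_iff_dvd]; push_cast; rw [hb, ZMod.natCast_zmod_val, sub_self]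
  have hmem := pt_add_mem τ h1 h2
  have e : ((a : ℂ) * τ + b) / N = pt v τ +
      (((a : ℂ) * τ + b) / N - ((((v 0).val : ℤ) : ℂ) * τ + (((v 1).val : ℤ) : ℂ)) / N) := by
    simp only [pt]; push_cast; ring
  rw [e]
  exact ⟨(lat τ).weierstrassP_add_coe _ ⟨_, hmem⟩, (lat τ).derivWeierstrassP_add_coe _ ⟨_, hmem⟩⟩

theorem wp_zero [NeZero N] (τ : ℍ) : wp (0 : Idx N) τ = 0 := by simp [wp, pt]

theorem wp'_zero [NeZero N] (τ : ℍ) : wp' (0 : Idx N) τ = 0 := by simp [wp', pt]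

theorem wp_neg [NeZero N] (v : Idx N) : wp (-v) = wp v := by
  funext τ
  have h := (weierstrassP_rep (-((v 0).val : ℤ)) (-((v 1).val : ℤ)) (-v) τ
    (by simp) (by simp)).1
  rw [show (((-((v 0).val : ℤ) : ℤ) : ℂ) * τ + ((-((v 1).val : ℤ) : ℤ) : ℂ)) / N = -pt v τ by
    simp only [pt]; push_cast; ring, PeriodPair.weierstrassP_neg] at h
  rw [wp, wp, h]

theorem wp'_neg [NeZero N] (v : Idx N) : wp' (-v) = -wp' v := by
  funext τ
  have h := (weierstrassP_rep (-((v 0).val : ℤ)) (-((v 1).val : ℤ)) (-v) τ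
    (by simp) (by simp)).2
  rw [show (((-((v 0).val : ℤ) : ℤ) : ℂ) * τ + ((-((v 1).val : ℤ) : ℤ) : ℂ)) / N = -pt v τ by
    simp only [pt]; push_cast; ring, PeriodPair.derivWeierstrassP_neg] at h
  rw [Pi.neg_apply, wp', wp', ← h, neg_div]

theorem act_of_mem_Gamma (v : Idx N) {γ : SL(2, ℤ)} (hγ : γ ∈ CongruenceSubgroup.Gamma N) :
    act v γ = v := by
  have h : ((γ : Matrix (Fin 2) (Fin 2) ℤ).map (Int.cast : ℤ → ZMod N)) = 1 := by
    rw [CongruenceSubgroup.Gamma_mem] at hγ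
    ext i j
    fin_cases i <;> fin_cases j <;>
      simp [hγ.1, hγ.2.1, hγ.2.2.1, hγ.2.2.2]
  rw [act, h, Matrix.vecMul_one]

theorem act_act (v : Idx N) (γ δ : SL(2, ℤ)) : act (act v γ) δ = act v (γ * δ) := by
  rw [act, act, act, Matrix.vecMul_vecMul, Matrix.SpecialLinearGroup.coe_mul,
    Matrix.map_mul_intCast]

theorem lattice_smul (γ : SL(2, ℤ)) (τ : ℍ) (hj : UpperHalfPlane.denom γ τ ≠ 0) :
    (lat (γ • τ)).lattice =
      (Bridge.scalePair (UpperHalfPlane.denom γ τ)⁻¹ (inv_ne_zero hj) (lat τ)).lattice := by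
  have hD : (γ 0 0 : ℂ) * γ 1 1 - (γ 0 1 : ℂ) * γ 1 0 = 1 := by
    have := γ.det_coe
    rw [Matrix.det_fin_two] at this
    exact_mod_cast this
  have hden : UpperHalfPlane.denom γ τ = (γ 1 0 : ℂ) * τ + γ 1 1 := by
    simp [UpperHalfPlane.denom]
  have hsm : ((γ • τ : ℍ) : ℂ) * UpperHalfPlane.denom γ τ = (γ 0 0 : ℂ) * τ + γ 0 1 := by
    rw [UpperHalfPlane.specialLinearGroup_apply, hden]
    have hne : (γ 1 0 : ℂ) * τ + γ 1 1 ≠ 0 := hden ▸ hj
    have hne' : (τ : ℂ) * γ 1 0 + γ 1 1 ≠ 0 := by rwa [mul_comm]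
    simp only [algebraMap_int_eq, eq_intCast, Complex.ofReal_intCast]
    field_simp
  ext x
  rw [Bridge.mem_lattice_scalePair]
  constructor
  · intro hx
    obtain ⟨m, n, hmn⟩ := PeriodPair.mem_lattice.mp hx
    have e : (m : ℂ) * 1 + (n : ℂ) * ((γ • τ : ℍ) : ℂ) = x := hmn
    refine ⟨x * UpperHalfPlane.denom γ τ, PeriodPair.mem_lattice.mpr
      ⟨m * γ 1 1 + n * γ 0 1, m * γ 1 0 + n * γ 0 0, ?_⟩, by field_simp⟩
    show ((m * γ 1 1 + n * γ 0 1 : ℤ) : ℂ) * 1 + ((m * γ 1 0 + n * γ 0 0 : ℤ) : ℂ) * (τ : ℂ) = _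
    rw [← e, add_mul, mul_assoc (n : ℂ), hsm, hden]
    push_cast; ring
  · rintro ⟨l, hl, rfl⟩
    obtain ⟨m, n, hmn⟩ := PeriodPair.mem_lattice.mp hl
    have e : (m : ℂ) * 1 + (n : ℂ) * (τ : ℂ) = l := hmn
    refine PeriodPair.mem_lattice.mpr ⟨m * γ 0 0 - n * γ 0 1, n * γ 1 1 - m * γ 1 0, ?_⟩
    show ((m * γ 0 0 - n * γ 0 1 : ℤ) : ℂ) * 1 +
      ((n * γ 1 1 - m * γ 1 0 : ℤ) : ℂ) * ((γ • τ : ℍ) : ℂ) = _
    refine (eq_inv_mul_iff_mul_eq₀ hj).mpr ?_
    rw [mul_add, mul_one, mul_comm _ (((n * γ 1 1 - m * γ 1 0 : ℤ) : ℂ) * _), mul_assoc, hsm, hden,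
      ← e]
    push_cast
    linear_combination ((m : ℂ) + n * τ) * hD

theorem wp_smul [NeZero N] (v : Idx N) (γ : SL(2, ℤ)) (τ : ℍ) :
    wp v (γ • τ) = UpperHalfPlane.denom γ τ ^ 2 * wp (act v γ) τ ∧
      wp' v (γ • τ) = UpperHalfPlane.denom γ τ ^ 3 * wp' (act v γ) τ := by
  have hj : UpperHalfPlane.denom γ τ ≠ 0 := UpperHalfPlane.denom_ne_zero _ τ
  set j := UpperHalfPlane.denom γ τ with hjdef
  set a : ℤ := ((v 0).val : ℤ)
  set b : ℤ := ((v 1).val : ℤ)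
  have hpt : pt v (γ • τ) = j⁻¹ *
      ((((a * γ 0 0 + b * γ 1 0 : ℤ) : ℂ) * τ + ((a * γ 0 1 + b * γ 1 1 : ℤ) : ℂ)) / N) := by
    have hden : j = (γ 1 0 : ℂ) * τ + γ 1 1 := by simp [hjdef, UpperHalfPlane.denom]
    have hne : (γ 1 0 : ℂ) * τ + γ 1 1 ≠ 0 := hden ▸ hj
    have := natCast_N_ne_zero (N := N)
    have hne' : (τ : ℂ) * γ 1 0 + γ 1 1 ≠ 0 := by rwa [mul_comm]
    simp only [pt, UpperHalfPlane.specialLinearGroup_apply, algebraMap_int_eq, eq_intCast,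
      Complex.ofReal_intCast, hden, a, b]
    push_cast
    field_simp
    ring
  have hr := weierstrassP_rep (a * γ 0 0 + b * γ 1 0) (a * γ 0 1 + b * γ 1 1) (act v γ) τ
    (by simp [act, Matrix.vecMul, dotProduct, Fin.sum_univ_two, a, b])
    (by simp [act, Matrix.vecMul, dotProduct, Fin.sum_univ_two, a, b])
  constructor
  · rw [wp, wp, hpt, weierstrassP_congr (lattice_smul γ τ hj), weierstrassP_scalePair, hr.1]
    rw [inv_pow, inv_inv]; ring
  · rw [wp', wp', hpt, derivWeierstrassP_congr (lattice_smul γ τ hj), derivWeierstrassP_scalePair,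
      hr.2]
    rw [inv_pow, inv_inv]; ring

theorem wp_slash [NeZero N] (v : Idx N) (γ : SL(2, ℤ)) :
    wp v ∣[(2 : ℤ)] γ = wp (act v γ) := by
  funext τ
  have hj : UpperHalfPlane.denom γ τ ≠ 0 := UpperHalfPlane.denom_ne_zero _ τ
  rw [ModularForm.SL_slash_apply, (wp_smul v γ τ).1, zpow_neg, zpow_ofNat]
  field_simp

theorem wp'_slash [NeZero N] (v : Idx N) (γ : SL(2, ℤ)) :
    wp' v ∣[(3 : ℤ)] γ = wp' (act v γ) := by
  funext τ
  have hj : UpperHalfPlane.denom γ τ ≠ 0 := UpperHalfPlane.denom_ne_zero _ τ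
  rw [ModularForm.SL_slash_apply, (wp_smul v γ τ).2, zpow_neg, zpow_ofNat]
  field_simp

/-- Weierstrass equation -/
theorem wp'_sq [NeZero N] {v : Idx N} (hv : v ≠ 0) (τ : ℍ) :
    wp' v τ ^ 2 = 4 * wp v τ ^ 3 - ModularForm.E₄ τ / 12 * wp v τ
      + ModularForm.E₆ τ / 216 := by
  have h := (lat τ).derivWeierstrassP_sq (pt v τ) ((pt_mem_lattice_iff v τ).not.mpr hv)
  rw [lat, Mazur.Lattice.g₂_periodPairOf, Mazur.Lattice.g₃_periodPairOf] at h
  have hπ : (π : ℂ) ≠ 0 := Complex.ofReal_ne_zero.mpr Real.pi_ne_zero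
  rw [wp', wp, lat, div_pow, div_pow, h]
  simp only [mul_pow, ← pow_mul, show (2 * 3 : ℕ) = 6 from rfl, Complex.I_sq, Complex.I_pow_three,
    show (I : ℂ) ^ 6 = -1 by rw [show (6 : ℕ) = 4 + 2 from rfl, pow_add, Complex.I_pow_four,
      Complex.I_sq, one_mul]]
  field_simp
  simp only [Complex.I_sq]
  ring

section Algebra

variable {R S : Type*} [CommRing R] [CommRing S] [NeZero N]

theorem isUnit_one_sub_pow [IsDomain R] {ζ : R} (hζ : IsPrimitiveRoot ζ N) (hN : IsUnit (N : R))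
    {b : ℕ} (hb : (b : ZMod N) ≠ 0) : IsUnit (1 - ζ ^ b) := by
  have hmod : ζ ^ b = ζ ^ (b % N) := by
    exact pow_eq_pow_mod b hζ.pow_eq_one
  have hr : b % N ≠ 0 := fun h => hb ((ZMod.natCast_eq_zero_iff _ _).mpr (Nat.dvd_of_mod_eq_zero h))
  obtain ⟨n, rfl⟩ : ∃ n, N = n + 1 := ⟨N - 1, by have := NeZero.ne N; omega⟩
  have hlt : b % (n + 1) < n + 1 := Nat.mod_lt _ (Nat.succ_pos n)
  refine isUnit_of_dvd_unit ?_ hN
  rw [hmod, Nat.cast_add, Nat.cast_one, ← hζ.prod_one_sub_pow_eq_order]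
  obtain ⟨i, hi⟩ : ∃ i, b % (n + 1) = i + 1 := ⟨b % (n + 1) - 1, by omega⟩
  rw [hi]
  exact Finset.dvd_prod_of_mem (fun k => 1 - ζ ^ (k + 1)) (Finset.mem_range.mpr (by omega))

theorem map_ringInverse (φ : R →+* S) {x : R} (hx : IsUnit x) :
    φ (Ring.inverse x) = Ring.inverse (φ x) := by
  obtain ⟨u, rfl⟩ := hx
  rw [Ring.inverse_unit, ← MonoidHom.coe_coe φ, ← Units.coe_map, ← Units.coe_map, Ring.inverse_unit,
    map_inv]

theorem map_lamCoeff (φ : R →+* S) (ζ : R) (k : ℕ) (sgn : R) (v : Idx N) (e d : ℕ) :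
    φ (lamCoeff ζ k sgn v e d) = lamCoeff (φ ζ) k (φ sgn) v e d := by
  simp only [lamCoeff, map_mul, map_pow, map_natCast, map_sub, map_add, apply_ite φ, map_zero,
    map_one]

theorem map_xCoeff (φ : R →+* S) {ζ : R} {v : Idx N} (hv : v ≠ 0)
    (hu : ∀ b : ℕ, (b : ZMod N) ≠ 0 → IsUnit (1 - ζ ^ b)) (M : ℕ) :
    φ (xCoeff ζ v M) = xCoeff (φ ζ) v M := by
  unfold xCoeff
  split_ifs with h0 h1
  · have hb : (((v 1).val : ℕ) : ZMod N) ≠ 0 := by
      rw [ZMod.natCast_zmod_val]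
      intro h; apply hv; funext i; fin_cases i <;> assumption
    rw [map_mul, map_pow, map_ringInverse φ ((hu _ hb).pow 2), map_pow, map_sub, map_one, map_pow]
  · exact map_zero φ
  · rw [map_sum]; simp only [map_lamCoeff, map_one]

theorem map_yCoeff (φ : R →+* S) {ζ : R} {v : Idx N} (hv : v ≠ 0)
    (hu : ∀ b : ℕ, (b : ZMod N) ≠ 0 → IsUnit (1 - ζ ^ b)) (M : ℕ) :
    φ (yCoeff ζ v M) = yCoeff (φ ζ) v M := by
  unfold yCoeff
  split_ifs with h0 h1
  · have hb : (((v 1).val : ℕ) : ZMod N) ≠ 0 := by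
      rw [ZMod.natCast_zmod_val]
      intro h; apply hv; funext i; fin_cases i <;> assumption
    rw [map_mul, map_mul, map_add, map_one, map_pow, map_ringInverse φ ((hu _ hb).pow 3), map_pow,
      map_sub, map_one, map_pow]
  · exact map_zero φ
  · rw [map_sum]; simp only [map_lamCoeff, map_neg, map_one]

theorem pow_val_mul {ζ : R} (hζ : ζ ^ N = 1) (x y : ZMod N) :
    (ζ ^ x.val) ^ y.val = ζ ^ (x * y).val := by
  rw [← pow_mul]
  exact pow_eq_pow_of_modEq ((ZMod.natCast_eq_natCast_iff _ _ _).mp (by simp)) hζ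

theorem lamCoeff_pow {ζ : R} (hζ : ζ ^ N = 1) (u : ZMod N) (k : ℕ) (sgn : R) (v : Idx N)
    (e d : ℕ) : lamCoeff (ζ ^ u.val) k sgn v e d = lamCoeff ζ k sgn (scale u v) e d := by
  have h : ∀ b : ZMod N, (ζ ^ u.val) ^ (b.val * d) = ζ ^ ((u * b).val * d) := fun b => by
    rw [pow_mul, pow_val_mul hζ, ← pow_mul]
  simp only [lamCoeff, scale, Matrix.cons_val_zero, Matrix.cons_val_one, Matrix.cons_val_fin_one, h,
    mul_neg]

theorem xCoeff_pow {ζ : R} (hζ : ζ ^ N = 1) (u : (ZMod N)ˣ) (v : Idx N) (M : ℕ) :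
    xCoeff (ζ ^ (u : ZMod N).val) v M = xCoeff ζ (scale (u : ZMod N) v) M := by
  simp only [xCoeff, lamCoeff_pow hζ, pow_val_mul hζ]
  rfl

theorem yCoeff_pow {ζ : R} (hζ : ζ ^ N = 1) (u : (ZMod N)ˣ) (v : Idx N) (M : ℕ) :
    yCoeff (ζ ^ (u : ZMod N).val) v M = yCoeff ζ (scale (u : ZMod N) v) M := by
  simp only [yCoeff, lamCoeff_pow hζ, pow_val_mul hζ]
  rfl

theorem xCoeff_zero_sub_isUnit [IsDomain R] {ζ : R} (hζ : IsPrimitiveRoot ζ N)
    (hN : IsUnit (N : R)) {b c : ZMod N} (hb : b ≠ 0) (hc : c ≠ 0) (h1 : b ≠ c) (h2 : b ≠ -c) :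
    IsUnit (xCoeff ζ (![0, b] : Idx N) 0 - xCoeff ζ (![0, c] : Idx N) 0) := by
  have hu : ∀ x : ZMod N, x ≠ 0 → IsUnit (1 - ζ ^ x.val) := fun x hx =>
    isUnit_one_sub_pow hζ hN (by rwa [ZMod.natCast_zmod_val])
  have hmul : ∀ x y : ZMod N, ζ ^ x.val * ζ ^ y.val = ζ ^ (x + y).val := fun x y => by
    rw [← pow_add]
    exact pow_eq_pow_of_modEq ((ZMod.natCast_eq_natCast_iff _ _ _).mp (by simp)) hζ.pow_eq_one
  simp only [xCoeff, ↓reduceIte, Matrix.cons_val_zero, Matrix.cons_val_one, Matrix.cons_val_fin_one]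
  set z := ζ ^ b.val with hz
  set w := ζ ^ c.val with hw
  have hzw : IsUnit (z - w) := by
    have : z - w = w * -(1 - ζ ^ (b - c).val) := by
      rw [mul_neg, mul_sub, mul_one, hmul, add_sub_cancel]; ring
    rw [this]
    exact ((hζ.isUnit (NeZero.ne N)).pow _).mul (hu _ (sub_ne_zero.mpr h1)).neg
  have hbc : IsUnit (1 - z * w) := by
    rw [hz, hw, hmul]; exact hu _ (fun h => h2 (eq_neg_of_add_eq_zero_left h))
  have hz2 := (hu b hb).pow 2
  have hw2 := (hu c hc).pow 2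
  refine isUnit_of_mul_isUnit_left (y := (1 - z) ^ 2 * (1 - w) ^ 2) ?_
  have e1 := Ring.inverse_mul_cancel _ hz2
  have e2 := Ring.inverse_mul_cancel _ hw2
  rw [show (z * Ring.inverse ((1 - z) ^ 2) - w * Ring.inverse ((1 - w) ^ 2)) *
      ((1 - z) ^ 2 * (1 - w) ^ 2) = (z - w) * (1 - z * w) by
    linear_combination (z * (1 - w) ^ 2) * e1 - (w * (1 - z) ^ 2) * e2]
  exact hzw.mul hbc

end Algebra

theorem mem_or_mem_of_weierstrassP_eq (L : PeriodPair) {z w : ℂ} (hz : z ∉ L.lattice)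
    (hw : w ∉ L.lattice) (h : ℘[L] z = ℘[L] w) : z - w ∈ L.lattice ∨ z + w ∈ L.lattice := by
  let W : WeierstrassCurve ℂ := ⟨0, 0, 0, -L.g₂ / 4, -L.g₃ / 4⟩
  haveI : W.IsElliptic := ⟨isUnit_iff_ne_zero.mpr (by
    convert Mazur.Lattice.disc_ne_zero L using 1
    simp only [W, WeierstrassCurve.Δ, WeierstrassCurve.b₂, WeierstrassCurve.b₄, WeierstrassCurve.b₆,
      WeierstrassCurve.b₈]
    ring)⟩
  have hL : Mazur.Lattice.IsLatticeOf L W := by
    constructor <;>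
    · simp only [Mazur.curveG2, Mazur.curveG3, WeierstrassCurve.c₄, WeierstrassCurve.c₆,
        WeierstrassCurve.b₂, WeierstrassCurve.b₄, WeierstrassCurve.b₆, W]
      ring
  have hy : ℘'[L] z = ℘'[L] w ∨ ℘'[L] z = -℘'[L] w := by
    refine eq_or_eq_neg_of_sq_eq_sq _ _ ?_
    rw [L.derivWeierstrassP_sq z hz, L.derivWeierstrassP_sq w hw, h]
  rcases hy with hy | hy
  · refine Or.inl ((Mazur.Lattice.latHom_eq_zero_iff hL).mp ?_)
    rw [map_sub, sub_eq_zero, Mazur.Lattice.latHom_apply, Mazur.Lattice.latHom_apply,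
      Mazur.Lattice.latPoint_of_notMem hL hz, Mazur.Lattice.latPoint_of_notMem hL hw,
      WeierstrassCurve.Affine.Point.some.injEq]
    simp [Mazur.Lattice.latX, Mazur.Lattice.latY, h, hy]
  · refine Or.inr ((Mazur.Lattice.latHom_eq_zero_iff hL).mp ?_)
    have hw' : -w ∉ L.lattice := fun h' => hw (neg_mem_iff.mp h')
    rw [show z + w = z - (-w) by ring, map_sub, sub_eq_zero, Mazur.Lattice.latHom_apply,
      Mazur.Lattice.latHom_apply, Mazur.Lattice.latPoint_of_notMem hL hz,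
      Mazur.Lattice.latPoint_of_notMem hL hw', WeierstrassCurve.Affine.Point.some.injEq]
    simp [Mazur.Lattice.latX, Mazur.Lattice.latY, L.weierstrassP_neg, L.derivWeierstrassP_neg, h, hy]

theorem wp_eq_iff [NeZero N] {v w : Idx N} (hv : v ≠ 0) (hw : w ≠ 0) (τ : ℍ) :
    wp v τ = wp w τ ↔ v = w ∨ v = -w := by
  refine ⟨fun h => ?_, fun h => ?_⟩
  swap
  · rcases h with rfl | rfl
    · rfl
    · rw [wp_neg]
  have hP : ℘[lat τ] (pt v τ) = ℘[lat τ] (pt w τ) := by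
    simpa [wp, div_left_inj', Real.pi_ne_zero] using h
  have hzv := (pt_mem_lattice_iff v τ).not.mpr hv
  have hzw := (pt_mem_lattice_iff w τ).not.mpr hw
  rcases mem_or_mem_of_weierstrassP_eq (lat τ) hzv hzw hP with h1 | h1
  · refine Or.inl ?_
    rw [← sub_eq_zero]
    refine (pt_mem_lattice_iff _ τ).mp ?_
    have hmem := pt_add_mem (N := N) (a := ((v - w) 0).val) (b := ((v - w) 1).val)
      (a' := ((v 0).val : ℤ) - (w 0).val) (b' := ((v 1).val : ℤ) - (w 1).val) τ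
      (by rw [← ZMod.intCast_zmod_eq_zero_iff_dvd]; simp)
      (by rw [← ZMod.intCast_zmod_eq_zero_iff_dvd]; simp)
    have := add_mem hmem h1
    convert this using 1
    simp only [pt]
    push_cast
    ring
  · refine Or.inr ?_
    rw [eq_neg_iff_add_eq_zero]
    refine (pt_mem_lattice_iff _ τ).mp ?_
    have hmem := pt_add_mem (N := N) (a := ((v + w) 0).val) (b := ((v + w) 1).val)
      (a' := ((v 0).val : ℤ) + (w 0).val) (b' := ((v 1).val : ℤ) + (w 1).val) τ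
      (by rw [← ZMod.intCast_zmod_eq_zero_iff_dvd]; simp)
      (by rw [← ZMod.intCast_zmod_eq_zero_iff_dvd]; simp)
    have := add_mem hmem h1
    convert this using 1
    simp only [pt]
    push_cast
    ring

end FLTA.DeligneSerre.Torsion
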