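/-
[DS S1] division values of `℘`, `℘'` as modular forms on `Γ(N)`; re-exports the rest of S1.
-/
import Mathlib
import Fermat.Agent.DeligneSerre.Torsion.Elementary

set_option autoImplicit false

open Complex CongruenceSubgroup Filter Topology
open UpperHalfPlane hiding I
open scoped Real MatrixGroups ModularForm Manifold

namespace FLTA.DeligneSerre.Torsion

variable {N : ℕ}

/-- a function given by an everywhere convergent series in `qParam h` is holomorphic -/
theorem mdifferentiable_of_hasSum {f : ℍ → ℂ} {c : ℕ → ℂ} {h : ℝ} (hh : 0 < h)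
    (hf : ∀ τ : ℍ, HasSum (fun m => c m * Function.Periodic.qParam h τ ^ m) (f τ)) : MDiff f := by
  set g : ℂ → ℂ := (FormalMultilinearSeries.ofScalars ℂ c).sum
  have hrad : 1 ≤ (FormalMultilinearSeries.ofScalars ℂ c).radius := by
    refine le_of_forall_lt_imp_le_of_dense fun r hr => ?_
    rcases eq_or_ne r 0 with rfl | hr'
    · exact zero_le
    · lift r to NNReal using hr.ne_top
      refine FormalMultilinearSeries.le_radius_of_summable _ ?_
      have hr1 : (r : ℝ) < 1 := by exact_mod_cast hr
      have hr0 : (0 : ℝ) < r := by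
        rcases eq_or_lt_of_le r.2 with h0 | h0
        · exact absurd (NNReal.coe_eq_zero.mp h0.symm) (by simpa using hr')
        · exact h0
      have hq : ‖((r : ℝ) : ℂ)‖ < 1 := by simpa using hr1
      have hq0 : ((r : ℝ) : ℂ) ≠ 0 := by exact_mod_cast hr0.ne'
      have hs := (hf ⟨Function.Periodic.invQParam h ((r : ℝ) : ℂ),
        Function.Periodic.im_invQParam_pos_of_norm_lt_one hh hq hq0⟩).summable.norm
      simp only [Function.Periodic.qParam_right_inv hh.ne' hq0] at hs
      simpa [FormalMultilinearSeries.ofScalars_norm, norm_mul, norm_pow] using hs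
  have hga : AnalyticOnNhd ℂ g (Metric.ball 0 1) := by
    have hb := (FormalMultilinearSeries.ofScalars ℂ c).hasFPowerSeriesOnBall
      (lt_of_lt_of_le one_pos hrad)
    refine hb.analyticOnNhd.mono fun x hx => ?_
    simp only [Metric.mem_eball, Metric.mem_ball, dist_zero_right] at hx ⊢
    refine lt_of_lt_of_le ?_ hrad
    rw [edist_zero_right, ← ofReal_norm, ENNReal.ofReal_lt_one]
    exact hx
  rw [UpperHalfPlane.mdifferentiable_iff]
  refine (DifferentiableOn.comp (g := g) (f := fun z : ℂ => Function.Periodic.qParam h z)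
    hga.differentiableOn (Function.Periodic.differentiable_qParam).differentiableOn ?_).congr ?_
  · intro z hz
    simpa using Function.Periodic.norm_qParam_lt_one hh hz
  · intro z hz
    have hsum := hf ⟨z, hz⟩
    simp only [Function.comp_apply, g]
    rw [FormalMultilinearSeries.sum, UpperHalfPlane.ofComplex_apply_of_im_pos hz]
    refine (HasSum.tsum_eq ?_).symm
    refine hsum.congr_fun fun m => ?_
    simp [FormalMultilinearSeries.ofScalars_apply_eq, mul_comm]

theorem hasSum_wp_full [NeZero N] (v : Idx N) (τ : ℍ) :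
    HasSum (fun M : ℕ => (if v = 0 then 0 else xCoeff (zeta N) v M + if M = 0 then 1 / 12 else 0) •
      Function.Periodic.qParam N τ ^ M) (wp v τ) := by
  by_cases hv : v = 0
  · subst hv; simp [wp_zero, hasSum_zero]
  · have := (hasSum_wp hv τ).add (hasSum_ite_eq (0 : ℕ) (1 / 12 : ℂ))
    rw [sub_add_cancel] at this
    refine this.congr_fun fun M => ?_
    rcases eq_or_ne M 0 with rfl | hM
    · simp [hv]
    · simp [hv, hM]

theorem hasSum_wp'_full [NeZero N] (v : Idx N) (τ : ℍ) :
    HasSum (fun M : ℕ => (if v = 0 then 0 else yCoeff (zeta N) v M) •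
      Function.Periodic.qParam N τ ^ M) (wp' v τ) := by
  by_cases hv : v = 0
  · subst hv; simp [wp'_zero, hasSum_zero]
  · simpa [hv] using hasSum_wp' hv τ

theorem isBoundedAtImInfty_wp [NeZero N] (v : Idx N) : IsBoundedAtImInfty (wp v) :=
  UpperHalfPlane.isBoundedAtImInfty_of_hasSum_qExpansion
    (Nat.cast_pos.mpr (Nat.pos_of_ne_zero (NeZero.ne N))) (hasSum_wp_full v)

theorem isBoundedAtImInfty_wp' [NeZero N] (v : Idx N) : IsBoundedAtImInfty (wp' v) :=
  UpperHalfPlane.isBoundedAtImInfty_of_hasSum_qExpansion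
    (Nat.cast_pos.mpr (Nat.pos_of_ne_zero (NeZero.ne N))) (hasSum_wp'_full v)

/-- `℘` at an `N`-division point as a modular form on `Γ(N)` -/
noncomputable def wpForm [NeZero N] (v : Idx N) :
    ModularForm (CongruenceSubgroup.Gamma N) 2 where
  toFun := wp v
  slash_action_eq' := fun γ hγ => by
    obtain ⟨g, hg, rfl⟩ := hγ
    show wp v ∣[(2 : ℤ)] g = wp v
    rw [wp_slash, act_of_mem_Gamma v hg]
  holo' := mdifferentiable_of_hasSum (Nat.cast_pos.mpr (Nat.pos_of_ne_zero (NeZero.ne N)))
    (fun τ => (hasSum_wp_full v τ).congr_fun fun M => by rw [smul_eq_mul])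
  bdd_at_cusps' := fun {c} hc => by
    rw [Subgroup.IsArithmetic.isCusp_iff_isCusp_SL2Z] at hc
    rw [OnePoint.isBoundedAt_iff_forall_SL2Z hc]
    intro γ _
    rw [wp_slash]
    exact isBoundedAtImInfty_wp _

/-- `℘'` at an `N`-division point as a modular form on `Γ(N)` -/
noncomputable def wpDerivForm [NeZero N] (v : Idx N) :
    ModularForm (CongruenceSubgroup.Gamma N) 3 where
  toFun := wp' v
  slash_action_eq' := fun γ hγ => by
    obtain ⟨g, hg, rfl⟩ := hγ
    show wp' v ∣[(3 : ℤ)] g = wp' v
    rw [wp'_slash, act_of_mem_Gamma v hg]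
  holo' := mdifferentiable_of_hasSum (Nat.cast_pos.mpr (Nat.pos_of_ne_zero (NeZero.ne N)))
    (fun τ => (hasSum_wp'_full v τ).congr_fun fun M => by rw [smul_eq_mul])
  bdd_at_cusps' := fun {c} hc => by
    rw [Subgroup.IsArithmetic.isCusp_iff_isCusp_SL2Z] at hc
    rw [OnePoint.isBoundedAt_iff_forall_SL2Z hc]
    intro γ _
    rw [wp'_slash]
    exact isBoundedAtImInfty_wp' _

@[simp] theorem coe_wpForm [NeZero N] (v : Idx N) : ⇑(wpForm v) = wp v := rfl

@[simp] theorem coe_wpDerivForm [NeZero N] (v : Idx N) : ⇑(wpDerivForm v) = wp' v := rfl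

theorem coeff_qExpansion_wp [NeZero N] {v : Idx N} (hv : v ≠ 0) (M : ℕ) :
    (UpperHalfPlane.qExpansion (N : ℝ) (wp v)).coeff M =
      xCoeff (zeta N) v M + if M = 0 then 1 / 12 else 0 := by
  have := ModularFormClass.qExpansion_coeff_unique (f := wpForm v)
    (Nat.cast_pos.mpr (Nat.pos_of_ne_zero (NeZero.ne N))) (by simp) (hasSum_wp_full v) M
  simpa [hv] using this.symm

theorem coeff_qExpansion_wp' [NeZero N] {v : Idx N} (hv : v ≠ 0) (M : ℕ) :
    (UpperHalfPlane.qExpansion (N : ℝ) (wp' v)).coeff M = yCoeff (zeta N) v M := by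
  have := ModularFormClass.qExpansion_coeff_unique (f := wpDerivForm v)
    (Nat.cast_pos.mpr (Nat.pos_of_ne_zero (NeZero.ne N))) (by simp) (hasSum_wp'_full v) M
  simpa [hv] using this.symm

end FLTA.DeligneSerre.Torsion
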