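/-
[DS S1] comparison of `torX`, `torY` (integer vectors) with `wp`, `wp'` (vectors mod `N`).
-/
import Fermat.Agent.DeligneSerre.Torsion.Interface
import Fermat.Agent.DeligneSerre.Level.TorsionDefs

set_option autoImplicit false

open PeriodPair
open scoped Real

namespace FLTA.DeligneSerre

theorem torX_eq_wp {N : ℕ} [NeZero N] (v : Fin 2 → ℤ) :
    torX N v = Torsion.wp (fun i => (v i : ZMod N)) := by
  funext τ
  show (periodsTau τ).weierstrassP _ / _ = _
  rw [Torsion.wp, ← (Torsion.weierstrassP_rep (v 0) (v 1)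
    (fun i => (v i : ZMod N)) τ rfl rfl).1]
  rfl

theorem torY_eq_wp' {N : ℕ} [NeZero N] (v : Fin 2 → ℤ) :
    torY N v = Torsion.wp' (fun i => (v i : ZMod N)) := by
  funext τ
  show (periodsTau τ).derivWeierstrassP _ / _ = _
  rw [Torsion.wp', ← (Torsion.weierstrassP_rep (v 0) (v 1)
    (fun i => (v i : ZMod N)) τ rfl rfl).2]
  rfl

end FLTA.DeligneSerre
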